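import Mathlib
import Fermat.Prelude.Thm_ModularCurve_coeffMap_qExpand
import Fermat.Agent.Lib.Kronecker.Formal
import Fermat.Agent.Lib.GaussInt.ValGroup
import Fermat.Agent.Lib.GaussInt.FrobFormal
import Fermat.Agent.MU.Lib.IgusaDeg.JInput
import Fermat.Agent.MU.Lib.BadRed.Final.Sep

section MergeWrap_S36_Reg_FrobCong -- from S36/Reg/FrobCong.lean

set_option autoImplicit false
set_option linter.style.haveILetI false

noncomputable section

namespace Fermat.Agent.S36RegN

open ModularCurve HahnSeries Fermat.Agent.Kronecker Fermat.Agent.GaussInt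

/-- **Frobenius congruence**, ring form. -/
theorem frobCong_ring {B : Type*} [CommRing B] (q : ℕ) [Fact q.Prime]
    (hq : (q : B) ∈ nonunits B) (z : LaurentSeries B)
    (hz : ∀ n, ∃ a : B, z.coeff n ^ q - z.coeff n = (q : B) * a) (n : ℤ) :
    haveI : NeZero q := ⟨(Fact.out : q.Prime).ne_zero⟩
    ∃ a : B, (qExpand B q z - z ^ q).coeff n = (q : B) * a := by
  haveI : NeZero q := ⟨(Fact.out : q.Prime).ne_zero⟩
  haveI : CharP (B ⧸ (Ideal.span ({(q : B)} : Set B) : Ideal B)) q := CharP.quotient B q hq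
  set I : Ideal B := Ideal.span ({(q : B)} : Set B) with hI
  set π : B →+* B ⧸ I := Ideal.Quotient.mk I with hπ
  have h2 : coeffMap (frobenius (B ⧸ I) q) (coeffMap π z) = coeffMap π z := by
    ext m
    rw [coeffMap_coeff, coeffMap_coeff, frobenius_def, ← map_pow]
    obtain ⟨a, ha⟩ := hz m
    have e : z.coeff m ^ q = z.coeff m + (q : B) * a := by rw [← ha]; ring
    rw [e, map_add]
    have h0 : π ((q : B) * a) = 0 := by
      rw [hπ, Ideal.Quotient.eq_zero_iff_mem, hI]
      exact Ideal.mul_mem_right _ _ (Ideal.mem_span_singleton_self _)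
    rw [h0, add_zero]
  have h1 : coeffMap π (qExpand B q z - z ^ q) = 0 := by
    rw [map_sub, map_pow, coeffMap_qExpand, pow_char_eq_qExpand_frobenius q (coeffMap π z), h2,
      sub_self]
  have h3 : π ((qExpand B q z - z ^ q).coeff n) = 0 := by
    rw [← coeffMap_coeff, h1]
    rfl
  rw [hπ, Ideal.Quotient.eq_zero_iff_mem, hI, Ideal.mem_span_singleton'] at h3
  obtain ⟨a, ha⟩ := h3
  exact ⟨a, by rw [← ha, mul_comm]⟩

variable {K : Type*} [Field K] (A : ValuationSubring K)

/-- `z ∈ A((t))` has FROBENIUS-STABLE coefficients: `z_n ^ q ≡ z_n mod q A`. -/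
def FrobStable (q : ℕ) (z : LaurentSeries A) : Prop :=
  ∀ n, ∃ a : A, z.coeff n ^ q - z.coeff n = (q : A) * a

variable {A}

theorem natCast_mem_nonunits_of_liesOver {q : ℕ} (hA : A.LiesOverPrime q) :
    (q : A) ∈ nonunits A := by
  have h : (q : K) ∈ A.nonunits := hA
  rw [ValuationSubring.mem_nonunits_iff_exists_mem_maximalIdeal] at h
  obtain ⟨hqA, hmem⟩ := h
  have e : (⟨(q : K), hqA⟩ : A) = (q : A) := Subtype.ext (by simp)
  rw [e] at hmem
  exact (IsLocalRing.mem_maximalIdeal _).mp hmem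

/-- **Frobenius congruence** over a valuation ring over `q`: `z (t^q) - z^q = q Y`. -/
theorem frobCong_exists_A {q : ℕ} [Fact q.Prime] (hA : A.LiesOverPrime q) [CharZero K]
    {z : LaurentSeries A} (hz : FrobStable A q z) :
    haveI : NeZero q := ⟨(Fact.out : q.Prime).ne_zero⟩
    ∃ Y : LaurentSeries A, HahnSeries.C (q : A) * Y = qExpand A q z - z ^ q := by
  haveI : NeZero q := ⟨(Fact.out : q.Prime).ne_zero⟩
  have hq0 : (q : A) ≠ 0 := by
    exact_mod_cast (Fact.out : q.Prime).ne_zero
  have h := frobCong_ring q (natCast_mem_nonunits_of_liesOver hA) z hz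
  choose a ha using h
  have hsupp : Function.support a = (qExpand A q z - z ^ q).support := by
    ext n
    rw [Function.mem_support, HahnSeries.mem_support, ha n]
    constructor
    · intro h0
      exact mul_ne_zero hq0 h0
    · intro h0 h1
      exact h0 (by rw [h1, mul_zero])
  refine ⟨HahnSeries.mk a (by rw [hsupp]; exact (qExpand A q z - z ^ q).isPWO_support), ?_⟩
  ext n
  rw [HahnSeries.C_mul_eq_smul, HahnSeries.coeff_smul, ha n, smul_eq_mul]

/-- **Frobenius congruence**, embedded in `K((t))`. -/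
theorem frobCong_exists {q : ℕ} [Fact q.Prime] (hA : A.LiesOverPrime q) [CharZero K]
    {z : LaurentSeries A} (hz : FrobStable A q z) :
    haveI : NeZero q := ⟨(Fact.out : q.Prime).ne_zero⟩
    ∃ Y : LaurentSeries A,
      HahnSeries.C (q : K) * emb A Y = qExpand K q (emb A z) - emb A z ^ q := by
  haveI : NeZero q := ⟨(Fact.out : q.Prime).ne_zero⟩
  obtain ⟨Y, hY⟩ := frobCong_exists_A hA hz
  refine ⟨Y, ?_⟩
  have h := congrArg (emb A) hY
  rw [map_mul, map_sub, map_pow, Fermat.Agent.GaussIntFP.emb_qExpand] at h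
  rw [← h]
  congr 1
  rw [HahnSeries.C_apply, HahnSeries.C_apply, coeffMap_single]
  rfl

/-- the reduction of a Frobenius-stable series has coefficients in the prime field. -/
theorem red_frobStable_coeff {q : ℕ} [Fact q.Prime] [CharP (IsLocalRing.ResidueField A) q]
    {z : LaurentSeries A} (hz : FrobStable A q z) :
    coeffMap (frobenius (IsLocalRing.ResidueField A) q)
      (red A z) = red A z := by
  ext n
  rw [coeffMap_coeff, coeffMap_coeff, frobenius_def, ← map_pow]
  obtain ⟨a, ha⟩ := hz n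
  have e : z.coeff n ^ q = z.coeff n + (q : A) * a := by rw [← ha]; ring
  rw [e, map_add, map_mul, map_natCast, CharP.cast_eq_zero, zero_mul, add_zero]

/-- the reduction of a Frobenius-stable series satisfies `z̄ (t^q) = z̄ ^ q`. -/
theorem red_frobStable {q : ℕ} [Fact q.Prime] [CharP (IsLocalRing.ResidueField A) q]
    {z : LaurentSeries A} (hz : FrobStable A q z) :
    haveI : NeZero q := ⟨(Fact.out : q.Prime).ne_zero⟩
    qExpand (IsLocalRing.ResidueField A) q (red A z) = red A z ^ q := by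
  haveI : NeZero q := ⟨(Fact.out : q.Prime).ne_zero⟩
  rw [pow_char_eq_qExpand_frobenius q (red A z), red_frobStable_coeff hz]

theorem frobCong_frac_identity {L : Type*} [Field L] (x d : L) (hd : d ≠ 0) (q : ℕ) :
    (x * d⁻¹) ^ q - x * d⁻¹ = (x ^ q * d - x * d ^ q) * (d⁻¹) ^ (q + 1) := by
  have h1 : d ^ q * (d⁻¹) ^ q = 1 := by rw [← mul_pow, mul_inv_cancel₀ hd, one_pow]
  have h2 : d * d⁻¹ = 1 := mul_inv_cancel₀ hd
  rw [mul_pow, pow_succ]
  linear_combination (-(x ^ q * (d⁻¹) ^ q)) * h2 + (x * d⁻¹) * h1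

/-- series with RATIONAL `A`-integral coefficients are Frobenius-stable. -/
theorem frobStable_of_rat {q : ℕ} [Fact q.Prime] (hA : A.LiesOverPrime q) [CharZero K]
    (z : LaurentSeries A) (hrat : ∀ n, ∃ r : ℚ, ((z.coeff n : A) : K) = (r : K)) :
    FrobStable A q z := by
  intro n
  obtain ⟨r, hr⟩ := hrat n
  have hq : q.Prime := Fact.out
  have hqK : (q : K) ≠ 0 := by exact_mod_cast hq.ne_zero
  -- the denominator of `r` is prime to `q`
  have hden : ¬ (q : ℤ) ∣ (r.den : ℤ) := by
    intro hdvd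
    have hdvd' : q ∣ r.den := by exact_mod_cast hdvd
    -- then `q ∤ r.num`, so `r⁻¹ ∈ 𝔪`, contradiction with `r ∈ A`
    have hnum : ¬ (q : ℤ) ∣ r.num := by
      intro hnum
      have hcop := r.reduced
      have h1 : q ∣ r.num.natAbs := Int.natCast_dvd.mp hnum
      have := Nat.dvd_gcd h1 hdvd'
      rw [Nat.Coprime] at hcop
      rw [hcop] at this
      exact hq.one_lt.ne' (Nat.dvd_one.mp this)
    -- `num = r * den`, `den ∈ 𝔪` hence `num ∈ 𝔪`
    have hdenm : ((r.den : ℕ) : K) ∈ A.nonunits := by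
      obtain ⟨c, hc⟩ := hdvd'
      rw [hc, Nat.cast_mul]
      have hcA : ((c : ℕ) : K) ∈ A := natCast_mem A c
      have hv : A.valuation ((q : K) * (c : K)) < 1 := by
        rw [map_mul]
        have h1 : A.valuation (q : K) < 1 := A.mem_nonunits_iff.mp hA
        have h2 : A.valuation (c : K) ≤ 1 := (A.valuation_le_one_iff _).mpr hcA
        calc A.valuation (q : K) * A.valuation (c : K) ≤ A.valuation (q : K) * 1 :=
              mul_le_mul_right h2 _
          _ < 1 := by rwa [mul_one]
      exact A.mem_nonunits_iff.mpr hv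
    have hnumK : ((r.num : ℤ) : K) = (r : K) * ((r.den : ℕ) : K) := by
      have := Rat.mul_den_eq_num r
      have h2 := congrArg (fun x : ℚ => (x : K)) this
      simp only [Rat.cast_mul, Rat.cast_natCast, Rat.cast_intCast] at h2
      exact h2.symm
    have hrA : (r : K) ∈ A := hr ▸ (z.coeff n).2
    have hnumm : ((r.num : ℤ) : K) ∈ A.nonunits := by
      rw [hnumK]
      have hv : A.valuation ((r : K) * ((r.den : ℕ) : K)) < 1 := by
        rw [map_mul]
        have h1 : A.valuation ((r.den : ℕ) : K) < 1 := A.mem_nonunits_iff.mp hdenm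
        have h2 : A.valuation (r : K) ≤ 1 := (A.valuation_le_one_iff _).mpr hrA
        calc A.valuation (r : K) * A.valuation ((r.den : ℕ) : K)
            ≤ 1 * A.valuation ((r.den : ℕ) : K) := mul_le_mul_left h2 _
          _ < 1 := by rwa [one_mul]
      exact A.mem_nonunits_iff.mpr hv
    -- Bezout: `1 = x num + y q` lies in `𝔪`
    have hcop : IsCoprime (r.num : ℤ) (q : ℤ) := by
      rw [Int.isCoprime_iff_gcd_eq_one]
      have := (Nat.Prime.coprime_iff_not_dvd hq).mpr (fun h => hnum (Int.natCast_dvd.mpr h))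
      rw [Nat.coprime_comm] at this
      exact this
    obtain ⟨x, y, hxy⟩ := hcop
    have h1 : ((1 : ℤ) : K) = (x : K) * ((r.num : ℤ) : K) + (y : K) * ((q : ℤ) : K) := by
      rw [← hxy]
      push_cast
      ring
    have hv : A.valuation ((1 : ℤ) : K) < 1 := by
      rw [h1]
      refine lt_of_le_of_lt (A.valuation.map_add _ _) (max_lt ?_ ?_)
      · rw [map_mul]
        have h2 : A.valuation (x : K) ≤ 1 := (A.valuation_le_one_iff _).mpr (intCast_mem A x)
        have h3 : A.valuation ((r.num : ℤ) : K) < 1 := A.mem_nonunits_iff.mp hnumm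
        calc A.valuation (x : K) * A.valuation ((r.num : ℤ) : K)
            ≤ 1 * A.valuation ((r.num : ℤ) : K) := mul_le_mul_left h2 _
          _ < 1 := by rwa [one_mul]
      · rw [map_mul]
        have h2 : A.valuation (y : K) ≤ 1 := (A.valuation_le_one_iff _).mpr (intCast_mem A y)
        have h3 : A.valuation (((q : ℕ) : ℤ) : K) < 1 := by
          rw [Int.cast_natCast]
          exact A.mem_nonunits_iff.mp hA
        calc A.valuation (y : K) * A.valuation (((q : ℕ) : ℤ) : K)
            ≤ 1 * A.valuation (((q : ℕ) : ℤ) : K) := mul_le_mul_left h2 _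
          _ < 1 := by rwa [one_mul]
    rw [Int.cast_one, map_one] at hv
    exact lt_irrefl _ hv
  -- Fermat's little theorem in `ℤ / q`: `q ∣ num ^ q den - num den ^ q`... use `ZMod`
  have hden' : ¬ q ∣ r.den := fun h => hden (by exact_mod_cast h)
  -- `r ^ q - r = q * s` with `s` a rational with denominator prime to `q`
  have key : ∃ (m : ℤ), r.num ^ q * (r.den : ℤ) - r.num * (r.den : ℤ) ^ q = (q : ℤ) * m := by
    have h1 : ((r.num ^ q * (r.den : ℤ) - r.num * (r.den : ℤ) ^ q : ℤ) : ZMod q) = 0 := by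
      push_cast
      rw [ZMod.pow_card, ZMod.pow_card]
      ring
    rw [ZMod.intCast_zmod_eq_zero_iff_dvd] at h1
    exact h1
  obtain ⟨m, hm⟩ := key
  have hdK : ((r.den : ℕ) : K) ≠ 0 := by exact_mod_cast r.den_nz
  have hdinv : (((r.den : ℕ) : K))⁻¹ ∈ A :=
    natCast_inv_mem_of_not_dvd A hq hA hden'
  have hrK : (r : K) = ((r.num : ℤ) : K) * (((r.den : ℕ) : K))⁻¹ := by
    have := Rat.num_div_den r
    have h2 := congrArg (fun x : ℚ => (x : K)) this
    simp only [Rat.cast_div, Rat.cast_natCast, Rat.cast_intCast] at h2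
    rw [← h2, div_eq_mul_inv]
  have hmK : ((r.num : ℤ) : K) ^ q * ((r.den : ℕ) : K) - ((r.num : ℤ) : K) * ((r.den : ℕ) : K) ^ q
      = (q : K) * (m : K) := by
    have h2 := congrArg (fun x : ℤ => (x : K)) hm
    simp only [Int.cast_sub, Int.cast_mul, Int.cast_pow, Int.cast_natCast] at h2
    exact h2
  have haA : (m : K) * ((((r.den : ℕ) : K))⁻¹) ^ (q + 1) ∈ A :=
    mul_mem (intCast_mem A m) (pow_mem hdinv _)
  refine ⟨⟨_, haA⟩, Subtype.ext ?_⟩
  show ((z.coeff n : A) : K) ^ q - ((z.coeff n : A) : K) =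
    ((q : ℕ) : K) * ((m : K) * ((((r.den : ℕ) : K))⁻¹) ^ (q + 1))
  rw [hr, hrK, ← mul_assoc, ← hmK]
  exact frobCong_frac_identity _ _ hdK q

end Fermat.Agent.S36RegN
end
end MergeWrap_S36_Reg_FrobCong

section MergeWrap_S36_Reg_RegInt -- from S36/Reg/RegInt.lean

set_option autoImplicit false
set_option linter.style.haveILetI false
set_option linter.unusedSectionVars false
set_option linter.unusedVariables false
set_option synthInstance.maxHeartbeats 400000

noncomputable section

namespace Fermat.Agent.S36RegN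

open ModularCurve AlgebraicCurve HahnSeries Fermat.Agent.GaussInt Fermat.Agent.AtkinLehner
  Fermat.Agent.Deuring Fermat.Agent.BadRed Fermat.Agent.Kronecker

local notation "Qb" => AlgebraicClosure ℚ

attribute [local instance 10000] SubalgebraClass.toAlgebra HahnSeries.powerSeriesAlgebra

variable (D : ALData) [NeZero D.Q] [NeZero D.R] [NeZero (D.Q * D.R)]
  (A : ValuationSubring Qb)

/-- the datum of (REG_t): `t ∈ F_R` has the expansion `z ∈ A((x))` with Frobenius-stable
coefficients. -/
structure IsFrobInt (t : modularFunctionFieldBar D.R) (z : LaurentSeries A) : Prop where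
  emb_eq : emb A z = (t : LaurentSeries Qb)
  stable : FrobStable A D.Q z

/-- rational integral expansions are Frobenius-stable. -/
theorem isFrobInt_of_rat [Fact D.Q.Prime] (hA : A.LiesOverPrime D.Q)
    (t : modularFunctionFieldBar D.R) (z : LaurentSeries A)
    (hz : emb A z = (t : LaurentSeries Qb))
    (hrat : ∀ n, ∃ r : ℚ, ((z.coeff n : A) : Qb) = (r : Qb)) : IsFrobInt D A t z :=
  ⟨hz, frobStable_of_rat hA z hrat⟩

variable {D A}
variable {S : ValSetup Qb (modularFunctionFieldBar (D.Q * D.R)) (IsLocalRing.ResidueField A)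
    (modularFunctionFieldFullC (IsLocalRing.ResidueField A) D.R)}
  (hS : IsGaussSetup (D.Q * D.R) D.R A S)
  {t : modularFunctionFieldBar D.R} {z : LaurentSeries A}

namespace IsFrobInt

include hS in
theorem alpha_mem (h : IsFrobInt D A t z) : alphaQ D t ∈ S.Ov := by
  rw [hS.mem_iff, coe_alphaQ, ← h.emb_eq]
  apply emb_mem_gaussSub
  rw [h.emb_eq]
  exact le_level_mul D t.2

include hS in
theorem coe_red_alpha (h : IsFrobInt D A t z) :
    ((S.red (alphaQ D t) : modularFunctionFieldFullC (IsLocalRing.ResidueField A) D.R) :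
      LaurentSeries (IsLocalRing.ResidueField A)) = red A z := by
  have hmem : emb A z ∈ modularFunctionFieldBar (D.Q * D.R) := by
    rw [h.emb_eq]
    exact le_level_mul D t.2
  rw [hS.coe_red _ (h.alpha_mem hS), coe_alphaQ, ← h.emb_eq, gaussResFun_emb hmem]

theorem coe_beta (h : IsFrobInt D A t z) :
    ((betaQ D t : modularFunctionFieldBar (D.Q * D.R)) : LaurentSeries Qb) =
      emb A (qExpand A D.Q z) := by
  rw [coe_betaQ, Fermat.Agent.GaussIntFP.emb_qExpand, h.emb_eq]

include hS in
theorem beta_mem (h : IsFrobInt D A t z) : betaQ D t ∈ S.Ov := by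
  rw [hS.mem_iff, h.coe_beta]
  apply emb_mem_gaussSub
  rw [← h.coe_beta]
  exact (betaQ D t).2

include hS in
theorem coe_red_beta (h : IsFrobInt D A t z) :
    ((S.red (betaQ D t) : modularFunctionFieldFullC (IsLocalRing.ResidueField A) D.R) :
      LaurentSeries (IsLocalRing.ResidueField A)) =
        qExpand (IsLocalRing.ResidueField A) D.Q (red A z) := by
  have hmem : emb A (qExpand A D.Q z) ∈ modularFunctionFieldBar (D.Q * D.R) := by
    rw [← h.coe_beta]
    exact (betaQ D t).2
  rw [hS.coe_red _ (h.beta_mem hS), h.coe_beta, gaussResFun_emb hmem,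
    Fermat.Agent.GaussIntFP.red_qExpand]

variable [Fact D.Q.Prime] [CharP (IsLocalRing.ResidueField A) D.Q]

include hS in
/-- `red t₁ = (red t₀) ^ q`. -/
theorem red_beta (h : IsFrobInt D A t z) :
    S.red (betaQ D t) = S.red (alphaQ D t) ^ D.Q := by
  apply Subtype.ext
  rw [h.coe_red_beta hS, red_frobStable h.stable]
  show _ = ((S.red (alphaQ D t) : modularFunctionFieldFullC (IsLocalRing.ResidueField A) D.R) :
      LaurentSeries (IsLocalRing.ResidueField A)) ^ D.Q
  rw [h.coe_red_alpha hS]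

include hS in
/-- `t̄` has coefficients in the prime field. -/
theorem coeffMap_frobenius_red_alpha (h : IsFrobInt D A t z) :
    coeffMap (frobenius (IsLocalRing.ResidueField A) D.Q)
      ((S.red (alphaQ D t) : modularFunctionFieldFullC (IsLocalRing.ResidueField A) D.R) :
        LaurentSeries (IsLocalRing.ResidueField A)) =
      ((S.red (alphaQ D t) : modularFunctionFieldFullC (IsLocalRing.ResidueField A) D.R) :
        LaurentSeries (IsLocalRing.ResidueField A)) := by
  rw [h.coe_red_alpha hS]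
  exact red_frobStable_coeff h.stable

include hS in
/-- `red (t₀ - t₁ ^ q) = t̄ - t̄ ^ (q ^ 2)`. -/
theorem red_Z (h : IsFrobInt D A t z) :
    S.red (alphaQ D t - betaQ D t ^ D.Q) =
      S.red (alphaQ D t) - S.red (alphaQ D t) ^ (D.Q ^ 2) := by
  rw [S.red_sub (h.alpha_mem hS) (pow_mem (h.beta_mem hS) _), S.red_pow (h.beta_mem hS),
    h.red_beta hS, ← pow_mul, pow_two]

include hS in
/-- **Frobenius congruence**: `δ = (t₁ - t₀ ^ q) / q` is integral for `v_∞`. -/
theorem delta_mem (hA : A.LiesOverPrime D.Q) (h : IsFrobInt D A t z) :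
    (betaQ D t - alphaQ D t ^ D.Q) /
      algebraMap Qb (modularFunctionFieldBar (D.Q * D.R)) (D.Q : Qb) ∈ S.Ov := by
  obtain ⟨Y, hY⟩ := frobCong_exists hA h.stable
  have hq0 : (D.Q : Qb) ≠ 0 := by exact_mod_cast (Fact.out : D.Q.Prime).ne_zero
  have hCeq : (HahnSeries.C (D.Q : Qb) : LaurentSeries Qb) =
      algebraMap Qb (LaurentSeries Qb) (D.Q : Qb) := by
    rw [algebraMap_laurentSeries_eq_single, HahnSeries.C_apply]
  have hC0 : (algebraMap Qb (LaurentSeries Qb) (D.Q : Qb) : LaurentSeries Qb) ≠ 0 := by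
    rw [← hCeq, Ne, ← map_zero (HahnSeries.C : Qb →+* LaurentSeries Qb)]
    exact fun h0 => hq0 (HahnSeries.C_injective h0)
  have hcoe : (((betaQ D t - alphaQ D t ^ D.Q) /
      algebraMap Qb (modularFunctionFieldBar (D.Q * D.R)) (D.Q : Qb) :
        modularFunctionFieldBar (D.Q * D.R)) : LaurentSeries Qb) = emb A Y := by
    have h1 : (((betaQ D t - alphaQ D t ^ D.Q) /
        algebraMap Qb (modularFunctionFieldBar (D.Q * D.R)) (D.Q : Qb) :
          modularFunctionFieldBar (D.Q * D.R)) : LaurentSeries Qb) =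
        (qExpand Qb D.Q (t : LaurentSeries Qb) - (t : LaurentSeries Qb) ^ D.Q) /
          algebraMap Qb (LaurentSeries Qb) (D.Q : Qb) := by
      have e_den : ((algebraMap Qb (modularFunctionFieldBar (D.Q * D.R)) (D.Q : Qb) :
          modularFunctionFieldBar (D.Q * D.R)) : LaurentSeries Qb) =
          algebraMap Qb (LaurentSeries Qb) (D.Q : Qb) := rfl
      rw [IntermediateField.coe_div, AddSubgroupClass.coe_sub, IntermediateField.coe_pow,
        coe_betaQ, coe_alphaQ, e_den]
    rw [h1, ← h.emb_eq, ← hY, hCeq, mul_div_cancel_left₀ _ hC0]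
  rw [hS.mem_iff, hcoe]
  apply emb_mem_gaussSub
  rw [← hcoe]
  exact Subtype.mem _

/-! ### the side `v_0 = v_∞ ∘ w_q` -/

include hS in
theorem alpha_mem_zero (h : IsFrobInt D A t z) : alphaQ D t ∈ (valSetupZero D S).Ov := by
  rw [mem_valSetupZero_Ov, atkinLehner_alphaQ]
  exact h.beta_mem hS

include hS in
theorem beta_mem_zero (h : IsFrobInt D A t z) : betaQ D t ∈ (valSetupZero D S).Ov := by
  rw [mem_valSetupZero_Ov, atkinLehner_betaQ]
  exact h.alpha_mem hS

theorem red_zero_alpha (h : IsFrobInt D A t z) :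
    (valSetupZero D S).red (alphaQ D t) = S.red (betaQ D t) := by
  rw [valSetupZero_red, atkinLehner_alphaQ]

theorem red_zero_beta (h : IsFrobInt D A t z) :
    (valSetupZero D S).red (betaQ D t) = S.red (alphaQ D t) := by
  rw [valSetupZero_red, atkinLehner_betaQ]

theorem atkinLehner_theta (t : modularFunctionFieldBar D.R) :
    atkinLehner D (betaQ D t - alphaQ D t ^ D.Q) = alphaQ D t - betaQ D t ^ D.Q := by
  rw [map_sub, map_pow, atkinLehner_betaQ, atkinLehner_alphaQ]

theorem atkinLehner_Z (t : modularFunctionFieldBar D.R) :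
    atkinLehner D (alphaQ D t - betaQ D t ^ D.Q) = betaQ D t - alphaQ D t ^ D.Q := by
  rw [map_sub, map_pow, atkinLehner_betaQ, atkinLehner_alphaQ]

include hS in
/-- `θ = t₁ - t₀ ^ q` is integral for `v_0`. -/
theorem theta_mem_zero (h : IsFrobInt D A t z) :
    betaQ D t - alphaQ D t ^ D.Q ∈ (valSetupZero D S).Ov := by
  rw [mem_valSetupZero_Ov, atkinLehner_theta]
  exact sub_mem (h.alpha_mem hS) (pow_mem (h.beta_mem hS) _)

include hS in
/-- `red₀ (t₁ - t₀ ^ q) = t̄ - t̄ ^ (q ^ 2)`. -/
theorem red_zero_theta (h : IsFrobInt D A t z) :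
    (valSetupZero D S).red (betaQ D t - alphaQ D t ^ D.Q) =
      S.red (alphaQ D t) - S.red (alphaQ D t) ^ (D.Q ^ 2) := by
  rw [valSetupZero_red, atkinLehner_theta, h.red_Z hS]

include hS in
/-- `(t₀ - t₁ ^ q) / q` is integral for `v_0`. -/
theorem Z_div_mem_zero (hA : A.LiesOverPrime D.Q) (h : IsFrobInt D A t z) :
    (alphaQ D t - betaQ D t ^ D.Q) /
      algebraMap Qb (modularFunctionFieldBar (D.Q * D.R)) (D.Q : Qb) ∈ (valSetupZero D S).Ov := by
  rw [mem_valSetupZero_Ov, map_div₀, atkinLehner_Z, AlgEquiv.commutes]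
  exact h.delta_mem hS hA

/-- `red₀ ((t₀ - t₁ ^ q) / q) = red δ`. -/
theorem red_zero_Z_div (h : IsFrobInt D A t z) :
    (valSetupZero D S).red ((alphaQ D t - betaQ D t ^ D.Q) /
      algebraMap Qb (modularFunctionFieldBar (D.Q * D.R)) (D.Q : Qb)) =
      S.red ((betaQ D t - alphaQ D t ^ D.Q) /
        algebraMap Qb (modularFunctionFieldBar (D.Q * D.R)) (D.Q : Qb)) := by
  rw [valSetupZero_red, map_div₀, atkinLehner_Z, AlgEquiv.commutes]

end IsFrobInt

end Fermat.Agent.S36RegN
end
end MergeWrap_S36_Reg_RegInt
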